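import Fermat.Agent.S18.T7709.Inst
import Fermat.Agent.S24.Modular

/-!
# S18, package T (helper7709): pieces T/0 and T/1 of the T board of helper2926

From the interface `TInt.lean` (`spec_poly`, `exists_fg_*`, `intClosed_gen_*`,
`ord_jb_inv_sub_eq_one`), the frozen RED statements and the landed S24 ramification theorem:

* `thmT_inf_of_TInt`      : the frozen statement `thmT_inf`, all `ℓ ∤ N`                 (T/0);
* `thmT_fin_local`        : chart fin, local conclusion at every point `ab` of the `j̄`-line with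
                            `ab ≠ 0 ∨ (1728 : k) ≠ 0`                                     (T/1);
* `thmT_fin_of_five_le`   : the frozen statement `thmT_fin` for `5 ≤ ℓ`                   (T/1);
* `thmT_fin_of_local_zero`: the frozen statement `thmT_fin` for all `ℓ`, from a local conclusion
                            at `j̄ = 0` (to be supplied by CASE A / CASE B when `ℓ ∈ {2, 3}`).
-/

set_option autoImplicit false
set_option synthInstance.maxHeartbeats 400000

noncomputable section

namespace Fermat.Agent.S18.T7709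

open ModularCurve AlgebraicCurve ModularCurve.IgusaScheme IntermediateField Polynomial

variable {ℓ : ℕ} [Fact ℓ.Prime] {A : ValuationSubring (AlgebraicClosure ℚ)} {N : ℕ} [NeZero N]

theorem transcendental_inv_of {K F : Type*} [Field K] [Field F] [Algebra K F] {x : F}
    (hx : Transcendental K x) : Transcendental K x⁻¹ := by
  intro h
  apply hx
  have h2 := h.inv
  rwa [inv_inv] at h2

theorem coe_jb : (jb N : LaurentSeries (AlgebraicClosure ℚ)) = coeffMap A.subtype (jqModC A) :=
  coeffMap_subtype_jqModC.symm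

theorem coe_jb_inv :
    (((jb N)⁻¹ : Fb N) : LaurentSeries (AlgebraicClosure ℚ)) = coeffMap A.subtype (jinvA A) := by
  rw [IntermediateField.coe_inv, coeffMap_subtype_jinvA, map_inv₀]
  rfl

theorem coe_jt : (jt A N : LaurentSeries (IsLocalRing.ResidueField A)) =
    coeffMap (IsLocalRing.residue A) (jqModC A) :=
  (coeffMap_jqModC _).symm

theorem coe_jt_inv : (((jt A N)⁻¹ : Ft A N) : LaurentSeries (IsLocalRing.ResidueField A)) =
    coeffMap (IsLocalRing.residue A) (jinvA A) := by
  rw [IntermediateField.coe_inv]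
  exact redA_jinvA.symm

theorem transcendental_jb : Transcendental (AlgebraicClosure ℚ) (jb N) :=
  Fermat.Agent.S24.jBar_transcendental N

theorem finiteDimensional_jb : FiniteDimensional (AlgebraicClosure ℚ)⟮jb N⟯ (Fb N) :=
  Fermat.Agent.S24.finiteDimensional_jBar N

theorem residue_ne_zero_of_mul_eq_one {a b : A} (h : a * b = 1) : IsLocalRing.residue A b ≠ 0 := by
  intro h0
  have h1 := congrArg (IsLocalRing.residue A) h
  rw [map_mul, h0, mul_zero, map_one] at h1
  exact zero_ne_one h1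


/-! ### T/0: the chart at infinity -/

/-- branch analysis for `1/j`: the branch values are `0` and `1/1728` -/
theorem exists_branch_inf (ab : IsLocalRing.ResidueField A) :
    ∃ a₀ : A, ∀ a : A, IsLocalRing.residue A a = ab → a ≠ a₀ →
      Unbranched (AlgebraicClosure ℚ) ((jb N)⁻¹) (a : AlgebraicClosure ℚ) := by
  have hxL : Transcendental (AlgebraicClosure ℚ) ((jb N)⁻¹) :=
    transcendental_inv_of (transcendental_jb (N := N))
  have hFfin : FiniteDimensional (AlgebraicClosure ℚ)⟮(jb N)⁻¹⟯ (Fb N) := by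
    rw [adjoin_simple_inv_eq]
    exact finiteDimensional_jb
  have key : ∀ a : A, a ≠ 0 → 1728 * (a : AlgebraicClosure ℚ) ≠ 1 →
      Unbranched (AlgebraicClosure ℚ) ((jb N)⁻¹) (a : AlgebraicClosure ℚ) := by
    intro a ha0 ha1
    refine unbranched_of_ord ((jb N)⁻¹) hxL (a : AlgebraicClosure ℚ) fun v hv => ?_
    exact ord_jb_inv_sub_eq_one N (a : AlgebraicClosure ℚ) (fun h => ha0 (Subtype.ext h)) ha1 v hv
  have hunit : ∀ a : A, 1728 * (a : AlgebraicClosure ℚ) = 1 → IsLocalRing.residue A a ≠ 0 := by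
    intro a h
    have h' : (1728 : A) * a = 1 := Subtype.ext (by push_cast; exact h)
    exact residue_ne_zero_of_mul_eq_one h'
  by_cases hab : ab = 0
  · refine ⟨0, fun a ha ha0 => key a ha0 fun h => ?_⟩
    exact hunit a h (by rw [ha, hab])
  · have hne : ∀ a : A, IsLocalRing.residue A a = ab → a ≠ 0 := by
      rintro a ha rfl
      rw [map_zero] at ha
      exact hab ha.symm
    by_cases h1 : ∃ a₁ : A, 1728 * (a₁ : AlgebraicClosure ℚ) = 1
    · obtain ⟨a₁, ha₁⟩ := h1
      refine ⟨a₁, fun a ha hne' => key a (hne a ha) fun h => hne' ?_⟩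
      apply Subtype.ext
      have h2 : (1728 : AlgebraicClosure ℚ) * (a : AlgebraicClosure ℚ) =
          1728 * (a₁ : AlgebraicClosure ℚ) := by rw [h, ha₁]
      exact mul_left_cancel₀ (by norm_num) h2
    · exact ⟨0, fun a ha _ => key a (hne a ha) fun h => h1 ⟨a, h⟩⟩

set_option maxHeartbeats 1600000 in
/-- **T/0**: the frozen statement `thmT_inf`, from the T interface. -/
theorem thmT_inf_of_TInt (hℓN : ¬ ℓ ∣ N) (hA : A.LiesOverPrime ℓ) (f : Ft A N)
    (hf : IsIntegral (Algebra.adjoin (IsLocalRing.ResidueField A) {(jt A N)⁻¹}) f) :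
    ∃ y : LaurentSeries A, IsIntInf ℓ A N y ∧
      coeffMap (IsLocalRing.residue A) y = (f : LaurentSeries (IsLocalRing.ResidueField A)) := by
  have hS' : ({(jFull N)⁻¹} : Set ↥(modularFunctionFieldFull N)) ⊆ {jFull N, (jFull N)⁻¹} :=
    Set.singleton_subset_iff.mpr (Set.mem_insert_of_mem _ rfl)
  refine chart_global hℓN hA hS' (isIntInf_jinv ℓ A N) coe_jt_inv f fun ab => ?_
  have hxL : Transcendental (AlgebraicClosure ℚ) ((jb N)⁻¹) :=
    transcendental_inv_of (transcendental_jb (N := N))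
  have hxk : Transcendental (IsLocalRing.ResidueField A) ((jt A N)⁻¹) :=
    transcendental_inv_of (transcendental_jt hA)
  have hFfin : FiniteDimensional (AlgebraicClosure ℚ)⟮(jb N)⁻¹⟯ (Fb N) := by
    rw [adjoin_simple_inv_eq]
    exact finiteDimensional_jb
  have hEfin : FiniteDimensional (IsLocalRing.ResidueField A)⟮(jt A N)⁻¹⟯ (Ft A N) := by
    rw [adjoin_simple_inv_eq]
    exact finiteDimensional_Ft hℓN hA
  have hEsep : Algebra.IsSeparable (IsLocalRing.ResidueField A)⟮(jt A N)⁻¹⟯ (Ft A N) := by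
    rw [adjoin_simple_inv_eq]
    exact isSeparable_Ft hℓN hA
  have hdeg : Module.finrank (IsLocalRing.ResidueField A)⟮(jt A N)⁻¹⟯ (Ft A N) =
      Module.finrank (AlgebraicClosure ℚ)⟮(jb N)⁻¹⟯ (Fb N) := by
    rw [adjoin_simple_inv_eq, adjoin_simple_inv_eq]
    exact finrank_Ft hℓN hA
  exact chart_local hℓN hA (Or.inr rfl) (isIntInf_jinv ℓ A N) coe_jb_inv coe_jt_inv hxL hxk hFfin
    hEfin hEsep hdeg (exists_fg_inf hℓN hA) (intClosed_gen_inf hℓN hA) ab (exists_branch_inf ab)
    f hf


/-! ### T/1: the finite chart -/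

/-- branch analysis for `j`: the branch values are `0` and `1728` -/
theorem exists_branch_fin (ab : IsLocalRing.ResidueField A)
    (hab : ab ≠ 0 ∨ (1728 : IsLocalRing.ResidueField A) ≠ 0) :
    ∃ a₀ : A, ∀ a : A, IsLocalRing.residue A a = ab → a ≠ a₀ →
      Unbranched (AlgebraicClosure ℚ) (jb N) (a : AlgebraicClosure ℚ) := by
  have hFfin : FiniteDimensional (AlgebraicClosure ℚ)⟮jb N⟯ (Fb N) := finiteDimensional_jb
  have key : ∀ a : A, a ≠ 0 → a ≠ 1728 →
      Unbranched (AlgebraicClosure ℚ) (jb N) (a : AlgebraicClosure ℚ) := by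
    intro a ha0 ha1
    refine unbranched_of_ord (jb N) transcendental_jb (a : AlgebraicClosure ℚ) fun v hv => ?_
    refine Fermat.Agent.S24.ord_eq_one_of_ne N (a : AlgebraicClosure ℚ)
      (fun h => ha0 (Subtype.ext h)) (fun h => ha1 (Subtype.ext (by push_cast; exact h))) v hv
  by_cases h0 : ab = 0
  · have h1728 : (1728 : IsLocalRing.ResidueField A) ≠ 0 := hab.resolve_left (fun h => h h0)
    refine ⟨0, fun a ha ha0 => key a ha0 ?_⟩
    rintro rfl
    rw [h0, map_ofNat] at ha
    exact h1728 ha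
  · refine ⟨1728, fun a ha ha1 => key a ?_ ha1⟩
    rintro rfl
    rw [map_zero] at ha
    exact h0 ha.symm

set_option maxHeartbeats 1600000 in
/-- **T/1 (local form)**: chart fin, local conclusion at the point `j̄ = ab`, for every `ab`
whose residue class contains at most one of the branch values `0`, `1728`. -/
theorem thmT_fin_local (hℓN : ¬ ℓ ∣ N) (hA : A.LiesOverPrime ℓ)
    (ab : IsLocalRing.ResidueField A)
    (hab : ab ≠ 0 ∨ (1728 : IsLocalRing.ResidueField A) ≠ 0) (f : Ft A N)
    (hf : IsIntegral (Algebra.adjoin (IsLocalRing.ResidueField A) {jt A N}) f) :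
    ∃ (s : (IsLocalRing.ResidueField A)[X]) (y : LaurentSeries A), IsIntFin ℓ A N y ∧
      s.eval ab ≠ 0 ∧
      ((Polynomial.aeval (jt A N) s * f : Ft A N) : LaurentSeries (IsLocalRing.ResidueField A)) =
        coeffMap (IsLocalRing.residue A) y :=
  chart_local hℓN hA (Or.inl rfl) (isIntFin_j ℓ A N) coe_jb coe_jt transcendental_jb
    (transcendental_jt hA) finiteDimensional_jb (finiteDimensional_Ft hℓN hA)
    (isSeparable_Ft hℓN hA) (finrank_Ft hℓN hA) (exists_fg_fin hℓN hA) (intClosed_gen_fin hℓN hA)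
    ab (exists_branch_fin ab hab) f hf

/-- **The frozen statement `thmT_fin`, from the T interface and a local conclusion at `j̄ = 0`**
(the latter is supplied by `thmT_fin_local` when `ℓ ≥ 5`, by CASE A / CASE B when `ℓ ∈ {2, 3}`). -/
theorem thmT_fin_of_local_zero (hℓN : ¬ ℓ ∣ N) (hA : A.LiesOverPrime ℓ) (f : Ft A N)
    (hf : IsIntegral (Algebra.adjoin (IsLocalRing.ResidueField A) {jt A N}) f)
    (h0 : ∃ (s : (IsLocalRing.ResidueField A)[X]) (y : LaurentSeries A), IsIntFin ℓ A N y ∧
      s.eval 0 ≠ 0 ∧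
      ((Polynomial.aeval (jt A N) s * f : Ft A N) : LaurentSeries (IsLocalRing.ResidueField A)) =
        coeffMap (IsLocalRing.residue A) y) :
    ∃ y : LaurentSeries A, IsIntFin ℓ A N y ∧
      coeffMap (IsLocalRing.residue A) y = (f : LaurentSeries (IsLocalRing.ResidueField A)) := by
  have hS' : ({jFull N} : Set ↥(modularFunctionFieldFull N)) ⊆ {jFull N, (jFull N)⁻¹} :=
    Set.singleton_subset_iff.mpr (Set.mem_insert _ _)
  refine chart_global hℓN hA hS' (isIntFin_j ℓ A N) coe_jt f fun ab => ?_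
  by_cases hab : ab = 0
  · rw [hab]
    exact h0
  · exact thmT_fin_local hℓN hA ab (Or.inl hab) f hf

/-- `1728 ≠ 0` in the residue field when `ℓ ≥ 5` -/
theorem residue_1728_ne_zero (h5 : 5 ≤ ℓ) (hA : A.LiesOverPrime ℓ) :
    (1728 : IsLocalRing.ResidueField A) ≠ 0 := by
  have hℓ : Nat.Prime ℓ := Fact.out
  have hℓ0 : ((ℓ : ℕ) : IsLocalRing.ResidueField A) = 0 := by
    obtain ⟨hmem, hmax⟩ := (ValuationSubring.mem_nonunits_iff_exists_mem_maximalIdeal).mp hA
    have h1 := (IsLocalRing.residue_eq_zero_iff _).mpr hmax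
    have h2 : (⟨(ℓ : AlgebraicClosure ℚ), hmem⟩ : A) = ((ℓ : ℕ) : A) := Subtype.ext (by simp)
    rw [h2, map_natCast] at h1
    exact h1
  have hcop : Nat.Coprime 1728 ℓ := by
    rw [Nat.coprime_comm, hℓ.coprime_iff_not_dvd]
    intro hdvd
    have h1728 : (1728 : ℕ) = 2 ^ 6 * 3 ^ 3 := by norm_num
    rw [h1728] at hdvd
    rcases (Nat.Prime.dvd_mul hℓ).mp hdvd with h | h
    · have := Nat.le_of_dvd (by norm_num) (hℓ.dvd_of_dvd_pow h)
      omega
    · have := Nat.le_of_dvd (by norm_num) (hℓ.dvd_of_dvd_pow h)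
      omega
  intro h
  have hgcd := Nat.gcd_eq_gcd_ab 1728 ℓ
  rw [hcop] at hgcd
  have h3 := congrArg (Int.cast : ℤ → IsLocalRing.ResidueField A) hgcd
  push_cast at h3
  rw [h, hℓ0, zero_mul, zero_mul, add_zero] at h3
  exact one_ne_zero h3

/-- **T/1**: the frozen statement `thmT_fin` for `ℓ ≥ 5`, from the T interface. -/
theorem thmT_fin_of_five_le (h5 : 5 ≤ ℓ) (hℓN : ¬ ℓ ∣ N) (hA : A.LiesOverPrime ℓ) (f : Ft A N)
    (hf : IsIntegral (Algebra.adjoin (IsLocalRing.ResidueField A) {jt A N}) f) :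
    ∃ y : LaurentSeries A, IsIntFin ℓ A N y ∧
      coeffMap (IsLocalRing.residue A) y = (f : LaurentSeries (IsLocalRing.ResidueField A)) :=
  thmT_fin_of_local_zero hℓN hA f hf
    (thmT_fin_local hℓN hA 0 (Or.inr (residue_1728_ne_zero h5 hA)) f hf)

end Fermat.Agent.S18.T7709
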