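import Fermat.Agent.S18.Red

/-!
# S18, package T (helper7709): plumbing between the frozen statements `thmT_fin` / `thmT_inf`
and ring-theoretic statements about the reduced charts.

* `redSub ℓ A N S`  : the `k`-subalgebra of `k((q))` of reductions of `S`-chart-integral series;
* `BkFt ℓ A N S`    : the same, as a subalgebra of the special function field `Ft A N`;
* `isFractionRing_BkFt_fin` / `_inf` : `Ft A N` is the fraction field of the reduced chart
  (from the RED exports R1-R4 only);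
* `thmT_fin_of_isIntegrallyClosed`, `thmT_inf_of_isIntegrallyClosed` : the frozen conclusions of
  `thmT_fin`, `thmT_inf` from `IsIntegrallyClosed (BkFt ..)`.

Everything here uses only the frozen statements of `Red.lean` (R1-R4).
-/

set_option autoImplicit false
set_option synthInstance.maxHeartbeats 400000

noncomputable section

namespace Fermat.Agent.S18.T7709

open ModularCurve AlgebraicCurve ModularCurve.IgusaScheme IntermediateField

/-! ### Generic lemmas on subalgebras -/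

section Generic

variable {R F : Type*} [CommRing R] [Field F] [Algebra R F]

theorem isIntegral_of_subalgebra_le {S T : Subalgebra R F} (h : S ≤ T) {x : F}
    (hx : IsIntegral ↥S x) : IsIntegral ↥T x :=
  hx.map_of_comp_eq (Subalgebra.inclusion h).toRingHom (RingHom.id F) (by ext; rfl)

/-- a subalgebra of a field is a fraction ring of it as soon as every element is a quotient -/
theorem isFractionRing_of_forall_frac (T : Subalgebra R F)
    (h : ∀ f : F, ∃ b₁ b₂ : F, b₁ ∈ T ∧ b₂ ∈ T ∧ b₂ ≠ 0 ∧ f * b₂ = b₁) :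
    IsFractionRing ↥T F := by
  have : FaithfulSMul ↥T F :=
    (faithfulSMul_iff_algebraMap_injective _ _).mpr Subtype.val_injective
  refine IsFractionRing.of_field ↥T F fun z => ?_
  obtain ⟨b₁, b₂, h1, h2, h0, he⟩ := h z
  refine ⟨⟨b₁, h1⟩, ⟨b₂, h2⟩, ?_⟩
  show z = b₁ / b₂
  rw [eq_div_iff h0, he]

/-- `S ≤ T`, `T` with fraction field `F`, `T` integrally closed: every element of `F`
integral over `S` lies in `T`. -/
theorem mem_of_isIntegral_of_isIntegrallyClosed {S T : Subalgebra R F} (h : S ≤ T)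
    [IsFractionRing ↥T F] [IsIntegrallyClosed ↥T] {x : F} (hx : IsIntegral ↥S x) : x ∈ T := by
  obtain ⟨y, hy⟩ := IsIntegrallyClosed.isIntegral_iff.mp (isIntegral_of_subalgebra_le h hx)
  rw [← hy]
  exact y.2

/-- `S ≤ T`, `T` integral over `S` and containing every element of `F` integral over `S`:
then `T` is integrally closed. -/
theorem isIntegrallyClosed_of_forall_mem {S T : Subalgebra R F} (h : S ≤ T)
    [IsFractionRing ↥T F] (hT : ∀ b ∈ T, IsIntegral ↥S b)
    (hcl : ∀ x : F, IsIntegral ↥S x → x ∈ T) : IsIntegrallyClosed ↥T := by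
  refine (isIntegrallyClosed_iff F).mpr fun {x} hx => ?_
  letI : Algebra ↥S ↥T := (Subalgebra.inclusion h).toRingHom.toAlgebra
  have : IsScalarTower ↥S ↥T F := IsScalarTower.of_algebraMap_eq fun _ => rfl
  have : Algebra.IsIntegral ↥S ↥T := ⟨fun b =>
    (isIntegral_algebraMap_iff (B := F) (Subtype.val_injective : Function.Injective
      (algebraMap ↥T F))).mp (hT b b.2)⟩
  have hx' : IsIntegral ↥S x := isIntegral_trans (A := ↥T) x hx
  exact ⟨⟨x, hcl x hx'⟩, rfl⟩

end Generic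

variable (ℓ : ℕ) [Fact ℓ.Prime] (A : ValuationSubring (AlgebraicClosure ℚ)) (N : ℕ) [NeZero N]

/-- coefficientwise reduction `A((q)) → k((q))` -/
abbrev redA : LaurentSeries A →+* LaurentSeries (IsLocalRing.ResidueField A) :=
  coeffMap (IsLocalRing.residue A)

theorem redA_C (a : A) : redA A (HahnSeries.C a) = HahnSeries.C (IsLocalRing.residue A a) := by
  show coeffMap _ (HahnSeries.single 0 a) = HahnSeries.single 0 _
  rw [coeffMap_single]

/-- Reductions of `S`-chart-integral series: a `k`-subalgebra of `k((q))`. -/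
def redSub (S : Set ↥(modularFunctionFieldFull N)) :
    Subalgebra (IsLocalRing.ResidueField A) (LaurentSeries (IsLocalRing.ResidueField A)) where
  carrier := {f | ∃ y : LaurentSeries A, IsChartInt ℓ A N S y ∧ redA A y = f}
  mul_mem' := by
    rintro _ _ ⟨y, hy, rfl⟩ ⟨z, hz, rfl⟩
    exact ⟨y * z, isChartInt_mul ℓ A N S hy hz, map_mul _ _ _⟩
  add_mem' := by
    rintro _ _ ⟨y, hy, rfl⟩ ⟨z, hz, rfl⟩
    exact ⟨y + z, isChartInt_add ℓ A N S hy hz, map_add _ _ _⟩
  algebraMap_mem' := by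
    intro c
    obtain ⟨a, rfl⟩ := IsLocalRing.residue_surjective (R := A) c
    refine ⟨HahnSeries.C a, isChartInt_C ℓ A N S a, ?_⟩
    rw [redA_C, algebraMap_laurentSeries_eq_single]
    rfl

variable {ℓ A N}

theorem mem_redSub {S : Set ↥(modularFunctionFieldFull N)}
    {f : LaurentSeries (IsLocalRing.ResidueField A)} :
    f ∈ redSub ℓ A N S ↔ ∃ y : LaurentSeries A, IsChartInt ℓ A N S y ∧ redA A y = f := Iff.rfl

theorem redA_mem_redSub {S : Set ↥(modularFunctionFieldFull N)} {y : LaurentSeries A}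
    (hy : IsChartInt ℓ A N S y) : redA A y ∈ redSub ℓ A N S := ⟨y, hy, rfl⟩

theorem C_mem_redSub (S : Set ↥(modularFunctionFieldFull N)) (c : IsLocalRing.ResidueField A) :
    HahnSeries.C c ∈ redSub ℓ A N S := by
  obtain ⟨a, rfl⟩ := IsLocalRing.residue_surjective (R := A) c
  exact ⟨HahnSeries.C a, isChartInt_C ℓ A N S a, redA_C A a⟩

/-- reductions of chart-integral series lie in the special function field (R2) -/
theorem redSub_le_Ft (hℓN : ¬ ℓ ∣ N) (hA : A.LiesOverPrime ℓ)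
    {S : Set ↥(modularFunctionFieldFull N)} (hS : S ⊆ {jFull N, (jFull N)⁻¹})
    {f : LaurentSeries (IsLocalRing.ResidueField A)} (hf : f ∈ redSub ℓ A N S) :
    f ∈ Ft A N := by
  obtain ⟨y, hy, rfl⟩ := hf
  exact (hy.mem_Adm hℓN hA hS).2

theorem jt_mem_redSub : jqModC (IsLocalRing.ResidueField A) ∈ redSub ℓ A N {jFull N} :=
  ⟨jqModC A, isIntFin_j ℓ A N, coeffMap_jqModC _⟩

theorem jt_inv_mem_redSub :
    (jqModC (IsLocalRing.ResidueField A))⁻¹ ∈ redSub ℓ A N {(jFull N)⁻¹} := by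
  refine ⟨jinvA A, isIntInf_jinv ℓ A N, ?_⟩
  have h := congrArg (redA A) (jinvA_mul_j A)
  rw [map_mul, map_one] at h
  have h2 : redA A (jqModC A) = jqModC (IsLocalRing.ResidueField A) := coeffMap_jqModC _
  rw [h2] at h
  exact eq_inv_of_mul_eq_one_left h


/-! ### Fractions: `Ft A N` is the fraction field of the reduced finite chart -/

theorem coeffMap_subtype_injective :
    Function.Injective (coeffMap A.subtype :
      LaurentSeries A → LaurentSeries (AlgebraicClosure ℚ)) := by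
  intro x y h
  ext n
  have h1 := congrArg (fun s : LaurentSeries (AlgebraicClosure ℚ) => s.coeff n) h
  simpa using h1

/-- every generator `j̄(q^d)` of `Ft` is a quotient of two elements of the reduced finite chart
(R3 + R4) -/
theorem exists_frac_jd (hℓN : ¬ ℓ ∣ N) (hA : A.LiesOverPrime ℓ) {d : ℕ} [NeZero d] (hd : d ∣ N) :
    ∃ b₁ b₂ : LaurentSeries (IsLocalRing.ResidueField A),
      b₁ ∈ redSub ℓ A N {jFull N} ∧ b₂ ∈ redSub ℓ A N {jFull N} ∧ b₂ ≠ 0 ∧
      qExpand (IsLocalRing.ResidueField A) d (jqModC (IsLocalRing.ResidueField A)) * b₂ = b₁ := by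
  set w : LaurentSeries A := qExpand A d (jqModC A) with hw
  have hwL : coeffMap A.subtype w = coeffEmb (AlgebraicClosure ℚ) (qExpand ℚ d jq) := by
    rw [hw, coeffMap_qExpand, coeffMap_jqModC, coeffEmb, coeffMap_qExpand, ← jqModC_rat,
      coeffMap_jqModC]
  have hwk : redA A w = qExpand (IsLocalRing.ResidueField A) d
      (jqModC (IsLocalRing.ResidueField A)) := by
    rw [hw, redA, coeffMap_qExpand, coeffMap_jqModC]
  have hmem : coeffEmb (AlgebraicClosure ℚ) (qExpand ℚ d jq) ∈ Fb N :=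
    coeffEmb_mem_laurentBaseChange _ (jqd_mem_full N hd)
  obtain ⟨y₁, y₂, h1, h2, h20, heq⟩ := exists_isIntFin_frac hℓN hA (⟨_, hmem⟩ : Fb N)
  have heq' : w * y₂ = y₁ := by
    apply coeffMap_subtype_injective (A := A)
    rw [map_mul, hwL]
    exact heq
  have hwk0 : redA A w ≠ 0 := by
    rw [hwk]
    intro h0
    have h1 : qExpand (IsLocalRing.ResidueField A) d (jqModC (IsLocalRing.ResidueField A)) =
        qExpand (IsLocalRing.ResidueField A) d 0 := by rw [h0, map_zero]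
    exact jqModC_ne_zero_of_nontrivial _ (qExpand_injective (R := IsLocalRing.ResidueField A) (N := d) h1)
  have hw0 : w ≠ 0 := fun h => hwk0 (by rw [h, map_zero])
  have hy10 : y₁ ≠ 0 := by
    rw [← heq']
    exact mul_ne_zero hw0 h20
  obtain ⟨c₂, y₂', hc2, hy2', e2, hr2⟩ := h2.exists_normalize hℓN hA (Or.inl rfl) h20
  obtain ⟨c₁, y₁', hc1, hy1', e1, hr1⟩ := h1.exists_normalize hℓN hA (Or.inl rfl) hy10
  rw [e1, e2] at heq'
  rcases ValuationRing.dvd_total c₁ c₂ with ⟨u, hu⟩ | ⟨u, hu⟩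
  · -- `c₂ = c₁ * u`
    have h3 : y₁' = HahnSeries.C u * w * y₂' := by
      have hC : (HahnSeries.C c₁ : LaurentSeries A) ≠ 0 := HahnSeries.C_ne_zero hc1
      apply mul_left_cancel₀ hC
      rw [← heq', hu, map_mul]
      ring
    refine ⟨redA A y₁', redA A (HahnSeries.C u * y₂'), redA_mem_redSub hy1',
      redA_mem_redSub (isChartInt_mul ℓ A N _ (isChartInt_C ℓ A N _ u) hy2'), ?_, ?_⟩
    · intro h0
      apply hr1
      show redA A y₁' = 0
      rw [h3, mul_right_comm, map_mul, h0, zero_mul]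
    · rw [← hwk, ← map_mul, h3]
      congr 1
      ring
  · -- `c₁ = c₂ * u`
    have h3 : w * y₂' = HahnSeries.C u * y₁' := by
      have hC : (HahnSeries.C c₂ : LaurentSeries A) ≠ 0 := HahnSeries.C_ne_zero hc2
      apply mul_left_cancel₀ hC
      rw [hu, map_mul] at heq'
      rw [mul_assoc (HahnSeries.C c₂)] at heq'
      rw [← heq']
      ring
    refine ⟨redA A (HahnSeries.C u * y₁'), redA A y₂',
      redA_mem_redSub (isChartInt_mul ℓ A N _ (isChartInt_C ℓ A N _ u) hy1'),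
      redA_mem_redSub hy2', hr2, ?_⟩
    rw [← hwk, ← map_mul, h3]

/-- every element of `Ft A N` is a quotient of two elements of the reduced finite chart -/
theorem exists_frac_fin (hℓN : ¬ ℓ ∣ N) (hA : A.LiesOverPrime ℓ)
    {f : LaurentSeries (IsLocalRing.ResidueField A)} (hf : f ∈ Ft A N) :
    ∃ b₁ b₂ : LaurentSeries (IsLocalRing.ResidueField A),
      b₁ ∈ redSub ℓ A N {jFull N} ∧ b₂ ∈ redSub ℓ A N {jFull N} ∧ b₂ ≠ 0 ∧ f * b₂ = b₁ := by
  induction hf using IntermediateField.adjoin_induction with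
  | mem x hx =>
    obtain ⟨d, hne, hd, rfl⟩ := hx
    have := hne
    exact exists_frac_jd hℓN hA hd
  | algebraMap c =>
    exact ⟨_, 1, Subalgebra.algebraMap_mem _ c, one_mem _, one_ne_zero, mul_one _⟩
  | add x y _ _ hx hy =>
    obtain ⟨a₁, a₂, ha1, ha2, ha0, hxa⟩ := hx
    obtain ⟨b₁, b₂, hb1, hb2, hb0, hyb⟩ := hy
    refine ⟨a₁ * b₂ + b₁ * a₂, a₂ * b₂, add_mem (mul_mem ha1 hb2) (mul_mem hb1 ha2),
      mul_mem ha2 hb2, mul_ne_zero ha0 hb0, ?_⟩
    rw [← hxa, ← hyb]
    ring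
  | inv x _ hx =>
    obtain ⟨a₁, a₂, ha1, ha2, ha0, hxa⟩ := hx
    by_cases hx0 : x = 0
    · exact ⟨0, 1, zero_mem _, one_mem _, one_ne_zero, by rw [hx0, inv_zero, zero_mul]⟩
    · have ha10 : a₁ ≠ 0 := by
        rw [← hxa]
        exact mul_ne_zero hx0 ha0
      refine ⟨a₂, a₁, ha2, ha1, ha10, ?_⟩
      rw [← hxa, ← mul_assoc, inv_mul_cancel₀ hx0, one_mul]
  | mul x y _ _ hx hy =>
    obtain ⟨a₁, a₂, ha1, ha2, ha0, hxa⟩ := hx
    obtain ⟨b₁, b₂, hb1, hb2, hb0, hyb⟩ := hy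
    refine ⟨a₁ * b₁, a₂ * b₂, mul_mem ha1 hb1, mul_mem ha2 hb2, mul_ne_zero ha0 hb0, ?_⟩
    rw [← hxa, ← hyb]
    ring


/-! ### The reduced chart inside the special function field -/

variable (ℓ A N) in
/-- The reduced chart as a `k`-subalgebra of the special function field `Ft A N`. -/
def BkFt (S : Set ↥(modularFunctionFieldFull N)) :
    Subalgebra (IsLocalRing.ResidueField A) ↥(Ft A N) :=
  (redSub ℓ A N S).comap (Ft A N).val

theorem mem_BkFt {S : Set ↥(modularFunctionFieldFull N)} {f : Ft A N} :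
    f ∈ BkFt ℓ A N S ↔ ∃ y : LaurentSeries A, IsChartInt ℓ A N S y ∧
      redA A y = (f : LaurentSeries (IsLocalRing.ResidueField A)) := Iff.rfl

theorem jt_mem_BkFt : jt A N ∈ BkFt ℓ A N {jFull N} := jt_mem_redSub

theorem jt_inv_mem_BkFt : (jt A N)⁻¹ ∈ BkFt ℓ A N {(jFull N)⁻¹} := by
  show (((jt A N)⁻¹ : Ft A N) : LaurentSeries (IsLocalRing.ResidueField A)) ∈
    redSub ℓ A N {(jFull N)⁻¹}
  rw [IntermediateField.coe_inv]
  exact jt_inv_mem_redSub

theorem adjoin_jt_le_BkFt :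
    Algebra.adjoin (IsLocalRing.ResidueField A) {jt A N} ≤ BkFt ℓ A N {jFull N} :=
  Algebra.adjoin_le (by rintro _ rfl; exact jt_mem_BkFt)

theorem adjoin_jt_inv_le_BkFt :
    Algebra.adjoin (IsLocalRing.ResidueField A) {(jt A N)⁻¹} ≤ BkFt ℓ A N {(jFull N)⁻¹} :=
  Algebra.adjoin_le (by rintro _ rfl; exact jt_inv_mem_BkFt)

/-- the reduced finite chart is integral over `k[j̄]` (R2) -/
theorem isIntegral_of_mem_BkFt_fin (hℓN : ¬ ℓ ∣ N) (hA : A.LiesOverPrime ℓ) {f : Ft A N}
    (hf : f ∈ BkFt ℓ A N {jFull N}) :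
    IsIntegral (Algebra.adjoin (IsLocalRing.ResidueField A) {jt A N}) f := by
  obtain ⟨y, hy, hyf⟩ := hf
  have h := isIntegral_red_of_isIntFin hℓN hA ⟨y, hy.mem_Adm hℓN hA (by simp)⟩ hy
  have e : redOf A (Fb N) (Ft A N) ⟨y, hy.mem_Adm hℓN hA (by simp)⟩ = f := Subtype.ext hyf
  rwa [e] at h

/-- the reduced chart at infinity is integral over `k[1/j̄]` (R2) -/
theorem isIntegral_of_mem_BkFt_inf (hℓN : ¬ ℓ ∣ N) (hA : A.LiesOverPrime ℓ) {f : Ft A N}
    (hf : f ∈ BkFt ℓ A N {(jFull N)⁻¹}) :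
    IsIntegral (Algebra.adjoin (IsLocalRing.ResidueField A) {(jt A N)⁻¹}) f := by
  obtain ⟨y, hy, hyf⟩ := hf
  have h := isIntegral_red_of_isIntInf hℓN hA ⟨y, hy.mem_Adm hℓN hA (by simp)⟩ hy
  have e : redOf A (Fb N) (Ft A N) ⟨y, hy.mem_Adm hℓN hA (by simp)⟩ = f := Subtype.ext hyf
  rwa [e] at h

theorem isFractionRing_BkFt_fin (hℓN : ¬ ℓ ∣ N) (hA : A.LiesOverPrime ℓ) :
    IsFractionRing ↥(BkFt ℓ A N {jFull N}) ↥(Ft A N) := by
  refine isFractionRing_of_forall_frac _ fun f => ?_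
  obtain ⟨b₁, b₂, h1, h2, h0, he⟩ := exists_frac_fin (ℓ := ℓ) hℓN hA f.2
  refine ⟨⟨b₁, redSub_le_Ft hℓN hA (by simp) h1⟩, ⟨b₂, redSub_le_Ft hℓN hA (by simp) h2⟩,
    h1, h2, ?_, Subtype.ext he⟩
  intro h
  exact h0 (congrArg Subtype.val h)

/-- Bridge: the frozen conclusion of `thmT_fin` from integral closedness of the reduced
finite chart. -/
theorem thmT_fin_of_isIntegrallyClosed (hℓN : ¬ ℓ ∣ N) (hA : A.LiesOverPrime ℓ)
    (hIC : IsIntegrallyClosed ↥(BkFt ℓ A N {jFull N})) (f : Ft A N)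
    (hf : IsIntegral (Algebra.adjoin (IsLocalRing.ResidueField A) {jt A N}) f) :
    ∃ y : LaurentSeries A, IsIntFin ℓ A N y ∧
      coeffMap (IsLocalRing.residue A) y = (f : LaurentSeries (IsLocalRing.ResidueField A)) := by
  have := isFractionRing_BkFt_fin (ℓ := ℓ) hℓN hA
  exact mem_of_isIntegral_of_isIntegrallyClosed adjoin_jt_le_BkFt hf

/-- Bridge, converse direction: the frozen statement `thmT_fin` is EQUIVALENT to integral
closedness of the reduced finite chart. -/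
theorem isIntegrallyClosed_BkFt_fin_of (hℓN : ¬ ℓ ∣ N) (hA : A.LiesOverPrime ℓ)
    (hT : ∀ f : Ft A N, IsIntegral (Algebra.adjoin (IsLocalRing.ResidueField A) {jt A N}) f →
      ∃ y : LaurentSeries A, IsIntFin ℓ A N y ∧
        coeffMap (IsLocalRing.residue A) y = (f : LaurentSeries (IsLocalRing.ResidueField A))) :
    IsIntegrallyClosed ↥(BkFt ℓ A N {jFull N}) := by
  have := isFractionRing_BkFt_fin (ℓ := ℓ) hℓN hA
  exact isIntegrallyClosed_of_forall_mem adjoin_jt_le_BkFt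
    (fun b hb => isIntegral_of_mem_BkFt_fin hℓN hA hb) hT


/-! ### Clearing poles: from the finite chart to the chart at infinity -/

theorem coeffMap_subtype_jqModC :
    coeffMap A.subtype (jqModC A) = coeffEmb (AlgebraicClosure ℚ) jq := by
  rw [coeffMap_jqModC, coeffEmb, ← jqModC_rat, coeffMap_jqModC]

theorem coeffMap_subtype_jinvA :
    coeffMap A.subtype (jinvA A) = coeffEmb (AlgebraicClosure ℚ) (jq⁻¹) := by
  have h := congrArg (coeffMap A.subtype) (jinvA_mul_j A)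
  rw [map_mul, map_one, coeffMap_subtype_jqModC] at h
  rw [map_inv₀]
  exact eq_inv_of_mul_eq_one_left h

theorem redA_jinvA_ne_zero : redA A (jinvA A) ≠ 0 := by
  have h := congrArg (redA A) (jinvA_mul_j A)
  rw [map_mul, map_one] at h
  exact left_ne_zero_of_mul_eq_one h

theorem redA_jinvA :
    redA A (jinvA A) = (jqModC (IsLocalRing.ResidueField A))⁻¹ := by
  have h := congrArg (redA A) (jinvA_mul_j A)
  rw [map_mul, map_one] at h
  have h2 : redA A (jqModC A) = jqModC (IsLocalRing.ResidueField A) := coeffMap_jqModC _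
  rw [h2] at h
  exact eq_inv_of_mul_eq_one_left h

theorem smul_eq_C_mul_laurent (a : A) (x : LaurentSeries (AlgebraicClosure ℚ)) :
    a • x = HahnSeries.C (a : AlgebraicClosure ℚ) * x := by
  rw [HahnSeries.C_mul_eq_smul]
  ext n
  rfl

variable (ℓ A N) in
/-- an element of the `A`-span of the finite chart, multiplied by a high power of `1/j`, lies in
the `A`-span of the chart at infinity -/
theorem exists_forall_pow_mul_mem_chartSpan_inf {v : LaurentSeries (AlgebraicClosure ℚ)}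
    (hv : v ∈ chartSpan ℓ A N {jFull N}) :
    ∃ m : ℕ, ∀ m' : ℕ, m ≤ m' →
      coeffEmb (AlgebraicClosure ℚ) (jq⁻¹) ^ m' * v ∈ chartSpan ℓ A N {(jFull N)⁻¹} := by
  induction hv using Submodule.span_induction with
  | mem x hx =>
    obtain ⟨x, rfl⟩ := hx
    have hx' : (x : ↥(modularFunctionFieldFull N)) ∈
        chartAlg N ℓ (insert ((jFull N)⁻¹)⁻¹ {(jFull N)⁻¹}) := by
      refine chartAlg_mono N ℓ ?_ x.2
      rw [inv_inv]
      exact Set.singleton_subset_iff.mpr (Set.mem_insert _ _)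
    obtain ⟨n, hn⟩ := exists_pow_mul_mem_chartAlg (Set.mem_singleton _)
      (inv_ne_zero (jFull_ne_zero N)) hx'
    refine ⟨n, fun m' hm' => ?_⟩
    have hmem : ((jFull N)⁻¹) ^ m' * (x : ↥(modularFunctionFieldFull N)) ∈
        chartAlg N ℓ {(jFull N)⁻¹} := by
      have e : ((jFull N)⁻¹) ^ m' * (x : ↥(modularFunctionFieldFull N)) =
          ((jFull N)⁻¹) ^ (m' - n) * (((jFull N)⁻¹) ^ n * (x : ↥(modularFunctionFieldFull N))) := by
        rw [← mul_assoc, ← pow_add, Nat.sub_add_cancel hm']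
      rw [e]
      exact mul_mem (pow_mem (subset_chartAlg N ℓ _ (Set.mem_singleton _)) _) hn
    refine Submodule.subset_span ⟨⟨_, hmem⟩, ?_⟩
    show coeffEmb (AlgebraicClosure ℚ)
      ((((jFull N)⁻¹) ^ m' * (x : ↥(modularFunctionFieldFull N)) :
        ↥(modularFunctionFieldFull N)) : LaurentSeries ℚ) = _
    rw [IntermediateField.coe_mul, IntermediateField.coe_pow, IntermediateField.coe_inv,
      coe_jFull, map_mul, map_pow]
  | zero => exact ⟨0, fun m' _ => by rw [mul_zero]; exact zero_mem _⟩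
  | add x y _ _ hx hy =>
    obtain ⟨m1, h1⟩ := hx
    obtain ⟨m2, h2⟩ := hy
    refine ⟨max m1 m2, fun m' hm' => ?_⟩
    rw [mul_add]
    exact add_mem (h1 m' (le_trans (le_max_left _ _) hm')) (h2 m' (le_trans (le_max_right _ _) hm'))
  | smul a x _ hx =>
    obtain ⟨m, h⟩ := hx
    refine ⟨m, fun m' hm' => ?_⟩
    have e : coeffEmb (AlgebraicClosure ℚ) (jq⁻¹) ^ m' * (a • x) =
        a • (coeffEmb (AlgebraicClosure ℚ) (jq⁻¹) ^ m' * x) := by
      rw [smul_eq_C_mul_laurent, smul_eq_C_mul_laurent]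
      ring
    rw [e]
    exact Submodule.smul_mem _ a (h m' hm')

/-- clearing poles: `y` integral on the finite chart ⟹ `j⁻ᵐ y` integral on the chart at
infinity for all large `m` -/
theorem exists_pow_jinv_mul_isIntInf {y : LaurentSeries A} (hy : IsIntFin ℓ A N y) :
    ∃ m : ℕ, ∀ m' : ℕ, m ≤ m' → IsIntInf ℓ A N (jinvA A ^ m' * y) := by
  obtain ⟨m, hm⟩ := exists_forall_pow_mul_mem_chartSpan_inf ℓ A N hy
  refine ⟨m, fun m' hm' => ?_⟩
  show coeffMap A.subtype (jinvA A ^ m' * y) ∈ chartSpan ℓ A N {(jFull N)⁻¹}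
  rw [map_mul, map_pow, coeffMap_subtype_jinvA]
  exact hm m' hm'

/-- every element of `Ft A N` is a quotient of two elements of the reduced chart at infinity -/
theorem exists_frac_inf (hℓN : ¬ ℓ ∣ N) (hA : A.LiesOverPrime ℓ)
    {f : LaurentSeries (IsLocalRing.ResidueField A)} (hf : f ∈ Ft A N) :
    ∃ b₁ b₂ : LaurentSeries (IsLocalRing.ResidueField A),
      b₁ ∈ redSub ℓ A N {(jFull N)⁻¹} ∧ b₂ ∈ redSub ℓ A N {(jFull N)⁻¹} ∧ b₂ ≠ 0 ∧
        f * b₂ = b₁ := by
  obtain ⟨b₁, b₂, ⟨y₁, hy1, rfl⟩, ⟨y₂, hy2, rfl⟩, h0, he⟩ := exists_frac_fin (ℓ := ℓ) hℓN hA hf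
  obtain ⟨m1, hm1⟩ := exists_pow_jinv_mul_isIntInf hy1
  obtain ⟨m2, hm2⟩ := exists_pow_jinv_mul_isIntInf hy2
  refine ⟨redA A (jinvA A ^ max m1 m2 * y₁), redA A (jinvA A ^ max m1 m2 * y₂),
    redA_mem_redSub (hm1 _ (le_max_left _ _)), redA_mem_redSub (hm2 _ (le_max_right _ _)), ?_, ?_⟩
  · rw [map_mul, map_pow]
    exact mul_ne_zero (pow_ne_zero _ redA_jinvA_ne_zero) h0
  · rw [map_mul, map_mul, ← he]
    ring

theorem isFractionRing_BkFt_inf (hℓN : ¬ ℓ ∣ N) (hA : A.LiesOverPrime ℓ) :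
    IsFractionRing ↥(BkFt ℓ A N {(jFull N)⁻¹}) ↥(Ft A N) := by
  refine isFractionRing_of_forall_frac _ fun f => ?_
  obtain ⟨b₁, b₂, h1, h2, h0, he⟩ := exists_frac_inf (ℓ := ℓ) hℓN hA f.2
  refine ⟨⟨b₁, redSub_le_Ft hℓN hA (by simp) h1⟩, ⟨b₂, redSub_le_Ft hℓN hA (by simp) h2⟩,
    h1, h2, ?_, Subtype.ext he⟩
  intro h
  exact h0 (congrArg Subtype.val h)

/-- Bridge: the frozen conclusion of `thmT_inf` from integral closedness of the reduced
chart at infinity. -/
theorem thmT_inf_of_isIntegrallyClosed (hℓN : ¬ ℓ ∣ N) (hA : A.LiesOverPrime ℓ)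
    (hIC : IsIntegrallyClosed ↥(BkFt ℓ A N {(jFull N)⁻¹})) (f : Ft A N)
    (hf : IsIntegral (Algebra.adjoin (IsLocalRing.ResidueField A) {(jt A N)⁻¹}) f) :
    ∃ y : LaurentSeries A, IsIntInf ℓ A N y ∧
      coeffMap (IsLocalRing.residue A) y = (f : LaurentSeries (IsLocalRing.ResidueField A)) := by
  have := isFractionRing_BkFt_inf (ℓ := ℓ) hℓN hA
  exact mem_of_isIntegral_of_isIntegrallyClosed adjoin_jt_inv_le_BkFt hf

/-- Bridge, converse direction: the frozen statement `thmT_inf` is EQUIVALENT to integral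
closedness of the reduced chart at infinity. -/
theorem isIntegrallyClosed_BkFt_inf_of (hℓN : ¬ ℓ ∣ N) (hA : A.LiesOverPrime ℓ)
    (hT : ∀ f : Ft A N,
      IsIntegral (Algebra.adjoin (IsLocalRing.ResidueField A) {(jt A N)⁻¹}) f →
      ∃ y : LaurentSeries A, IsIntInf ℓ A N y ∧
        coeffMap (IsLocalRing.residue A) y = (f : LaurentSeries (IsLocalRing.ResidueField A))) :
    IsIntegrallyClosed ↥(BkFt ℓ A N {(jFull N)⁻¹}) := by
  have := isFractionRing_BkFt_inf (ℓ := ℓ) hℓN hA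
  exact isIntegrallyClosed_of_forall_mem adjoin_jt_inv_le_BkFt
    (fun b hb => isIntegral_of_mem_BkFt_inf hℓN hA hb) hT

end Fermat.Agent.S18.T7709
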