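import Fermat.Agent.S18.TInt
import Fermat.Agent.S18.T7709.Plumb

/-!
# S18, package T (helper7709): instantiation of the T interface `TInt.lean` (acting architect
helper2926) on the modular charts.

* `chartRing ℓ A N S` : the ring `𝒪` of `S`-chart-integral series, with `cstHom`, `genHom`, `redHom`;
* `chart_local`  : `spec_poly` instantiated at `𝒪 = chartRing`, conclusion in series form;
* `chart_global` : local conclusions at all points of the special line ⟹ the conclusion of
  `thmT_fin` / `thmT_inf` (via `mem_range_of_forall_local`).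
-/

set_option autoImplicit false
set_option synthInstance.maxHeartbeats 400000

noncomputable section

namespace Fermat.Agent.S18.T7709

open ModularCurve AlgebraicCurve ModularCurve.IgusaScheme IntermediateField Polynomial

variable (ℓ : ℕ) [Fact ℓ.Prime] (A : ValuationSubring (AlgebraicClosure ℚ)) (N : ℕ) [NeZero N]

/-- the ring of `S`-chart-integral series -/
def chartRing (S : Set ↥(modularFunctionFieldFull N)) : Subring (LaurentSeries A) where
  carrier := {y | IsChartInt ℓ A N S y}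
  mul_mem' := fun ha hb => isChartInt_mul ℓ A N S ha hb
  one_mem' := by
    have h := isChartInt_C ℓ A N S 1
    rwa [map_one] at h
  add_mem' := fun ha hb => isChartInt_add ℓ A N S ha hb
  zero_mem' := by
    have h := isChartInt_C ℓ A N S 0
    rwa [map_zero] at h
  neg_mem' := fun ha => isChartInt_neg ℓ A N S ha

variable {ℓ A N}

theorem mem_chartRing {S : Set ↥(modularFunctionFieldFull N)} {y : LaurentSeries A} :
    y ∈ chartRing ℓ A N S ↔ IsChartInt ℓ A N S y := Iff.rfl

variable (ℓ A N) in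
/-- constants -/
def cstHom (S : Set ↥(modularFunctionFieldFull N)) : A →+* chartRing ℓ A N S where
  toFun a := ⟨HahnSeries.C a, isChartInt_C ℓ A N S a⟩
  map_one' := Subtype.ext (map_one _)
  map_mul' a b := Subtype.ext (map_mul _ a b)
  map_zero' := Subtype.ext (map_zero _)
  map_add' a b := Subtype.ext (map_add _ a b)

/-- generic fibre -/
def genHom (hℓN : ¬ ℓ ∣ N) (hA : A.LiesOverPrime ℓ) {S : Set ↥(modularFunctionFieldFull N)}
    (hS : S ⊆ {jFull N, (jFull N)⁻¹}) : chartRing ℓ A N S →+* ↥(Fb N) where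
  toFun y := ⟨coeffMap A.subtype (y : LaurentSeries A), (IsChartInt.mem_Adm hℓN hA hS y.2).1⟩
  map_one' := Subtype.ext (map_one _)
  map_mul' a b := Subtype.ext (map_mul _ (a : LaurentSeries A) b)
  map_zero' := Subtype.ext (map_zero _)
  map_add' a b := Subtype.ext (map_add _ (a : LaurentSeries A) b)

/-- reduction -/
def redHom (hℓN : ¬ ℓ ∣ N) (hA : A.LiesOverPrime ℓ) {S : Set ↥(modularFunctionFieldFull N)}
    (hS : S ⊆ {jFull N, (jFull N)⁻¹}) : chartRing ℓ A N S →+* ↥(Ft A N) where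
  toFun y := ⟨coeffMap (IsLocalRing.residue A) (y : LaurentSeries A),
    (IsChartInt.mem_Adm hℓN hA hS y.2).2⟩
  map_one' := Subtype.ext (map_one _)
  map_mul' a b := Subtype.ext (map_mul _ (a : LaurentSeries A) b)
  map_zero' := Subtype.ext (map_zero _)
  map_add' a b := Subtype.ext (map_add _ (a : LaurentSeries A) b)

theorem coe_genHom (hℓN : ¬ ℓ ∣ N) (hA : A.LiesOverPrime ℓ) {S : Set ↥(modularFunctionFieldFull N)}
    (hS : S ⊆ {jFull N, (jFull N)⁻¹}) (y : chartRing ℓ A N S) :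
    (genHom hℓN hA hS y : LaurentSeries (AlgebraicClosure ℚ)) =
      coeffMap A.subtype (y : LaurentSeries A) := rfl

theorem coe_redHom (hℓN : ¬ ℓ ∣ N) (hA : A.LiesOverPrime ℓ) {S : Set ↥(modularFunctionFieldFull N)}
    (hS : S ⊆ {jFull N, (jFull N)⁻¹}) (y : chartRing ℓ A N S) :
    (redHom hℓN hA hS y : LaurentSeries (IsLocalRing.ResidueField A)) =
      coeffMap (IsLocalRing.residue A) (y : LaurentSeries A) := rfl

theorem genHom_injective (hℓN : ¬ ℓ ∣ N) (hA : A.LiesOverPrime ℓ)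
    {S : Set ↥(modularFunctionFieldFull N)} (hS : S ⊆ {jFull N, (jFull N)⁻¹}) :
    Function.Injective (genHom hℓN hA hS) := by
  intro y z h
  exact Subtype.ext (coeffMap_subtype_injective (congrArg Subtype.val h))

theorem genHom_cst (hℓN : ¬ ℓ ∣ N) (hA : A.LiesOverPrime ℓ)
    {S : Set ↥(modularFunctionFieldFull N)} (hS : S ⊆ {jFull N, (jFull N)⁻¹}) (a : A) :
    genHom hℓN hA hS (cstHom ℓ A N S a) =
      algebraMap (AlgebraicClosure ℚ) ↥(Fb N) (a : AlgebraicClosure ℚ) := by
  apply Subtype.ext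
  show coeffMap A.subtype (HahnSeries.single 0 a) =
    algebraMap (AlgebraicClosure ℚ) (LaurentSeries (AlgebraicClosure ℚ)) (a : AlgebraicClosure ℚ)
  rw [coeffMap_single, algebraMap_laurentSeries_eq_single]
  rfl

theorem redHom_cst (hℓN : ¬ ℓ ∣ N) (hA : A.LiesOverPrime ℓ)
    {S : Set ↥(modularFunctionFieldFull N)} (hS : S ⊆ {jFull N, (jFull N)⁻¹}) (a : A) :
    redHom hℓN hA hS (cstHom ℓ A N S a) =
      algebraMap (IsLocalRing.ResidueField A) ↥(Ft A N) (IsLocalRing.residue A a) := by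
  apply Subtype.ext
  show coeffMap (IsLocalRing.residue A) (HahnSeries.single 0 a) =
    algebraMap (IsLocalRing.ResidueField A) (LaurentSeries (IsLocalRing.ResidueField A))
      (IsLocalRing.residue A a)
  rw [coeffMap_single, algebraMap_laurentSeries_eq_single]


/-- `ker red = 𝔪 𝒪` (from R3) -/
theorem redHom_ker (hℓN : ¬ ℓ ∣ N) (hA : A.LiesOverPrime ℓ)
    {S : Set ↥(modularFunctionFieldFull N)} (hS : S = {jFull N} ∨ S = {(jFull N)⁻¹})
    (hS' : S ⊆ {jFull N, (jFull N)⁻¹}) (y : chartRing ℓ A N S) (hy : redHom hℓN hA hS' y = 0) :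
    ∃ c : A, c ∈ IsLocalRing.maximalIdeal A ∧ ∃ y' : chartRing ℓ A N S,
      y = cstHom ℓ A N S c * y' := by
  by_cases hy0 : (y : LaurentSeries A) = 0
  · exact ⟨0, zero_mem _, 0, Subtype.ext (by rw [hy0]; simp)⟩
  · have hS3 : S = {jFull N} ∨ S = {(jFull N)⁻¹} ∨ S = {jFull N, (jFull N)⁻¹} := by
      rcases hS with h | h
      · exact Or.inl h
      · exact Or.inr (Or.inl h)
    obtain ⟨c, y', hc, hy', e, hr⟩ := IsChartInt.exists_normalize hℓN hA hS3 y.2 hy0
    refine ⟨c, ?_, ⟨y', hy'⟩, Subtype.ext e⟩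
    have h1 : coeffMap (IsLocalRing.residue A) (y : LaurentSeries A) = 0 :=
      congrArg Subtype.val hy
    rw [e, map_mul] at h1
    have h2 : coeffMap (IsLocalRing.residue A) (HahnSeries.C c) = 0 :=
      (mul_eq_zero.mp h1).resolve_right hr
    have h3 : coeffMap (IsLocalRing.residue A) (HahnSeries.C c) =
        HahnSeries.C (IsLocalRing.residue A c) := redA_C A c
    rw [h3] at h2
    have h4 : IsLocalRing.residue A c = 0 := by
      have := congrArg (fun s : LaurentSeries (IsLocalRing.ResidueField A) => s.coeff 0) h2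
      simpa using this
    exact (IsLocalRing.residue_eq_zero_iff c).mp h4

theorem adjoin_simple_inv_eq {K F : Type*} [Field K] [Field F] [Algebra K F] (x : F) :
    K⟮x⁻¹⟯ = K⟮x⟯ := by
  apply le_antisymm
  · exact adjoin_simple_le_iff.mpr (inv_mem (mem_adjoin_simple_self K x))
  · refine adjoin_simple_le_iff.mpr ?_
    have h := inv_mem (mem_adjoin_simple_self K x⁻¹)
    rwa [inv_inv] at h


variable (A) in
/-- the residue field of a valuation subring of `ℚ̄` is algebraically closed -/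
theorem isAlgClosed_residueField : IsAlgClosed (IsLocalRing.ResidueField A) := by
  refine IsAlgClosed.of_exists_root _ fun p hmon hirr => ?_
  have hlift : p ∈ Polynomial.lifts (IsLocalRing.residue A) :=
    (Polynomial.mem_lifts p).mpr (Polynomial.map_surjective _ IsLocalRing.residue_surjective p)
  obtain ⟨q, hq, hdeg, hqmon⟩ := Polynomial.lifts_and_degree_eq_and_monic hlift hmon
  have hdeg' : (q.map A.subtype).degree ≠ 0 := by
    rw [hqmon.degree_map, hdeg]
    exact (Polynomial.degree_pos_of_irreducible hirr).ne'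
  obtain ⟨α, hα⟩ := IsAlgClosed.exists_root (q.map A.subtype) hdeg'
  have hαint : IsIntegral A α := by
    refine ⟨q, hqmon, ?_⟩
    have h := hα
    rw [Polynomial.IsRoot.def, Polynomial.eval_map] at h
    exact h
  obtain ⟨a, rfl⟩ := IsIntegrallyClosed.isIntegral_iff.mp hαint
  refine ⟨IsLocalRing.residue A a, ?_⟩
  have h0 : q.eval a = 0 := by
    have h := hα
    rw [Polynomial.IsRoot.def, Polynomial.eval_map] at h
    have h2 : A.subtype (q.eval a) = 0 := by
      rw [← h]
      exact (Polynomial.eval₂_at_apply A.subtype a).symm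
    exact Subtype.ext h2
  rw [← hq, Polynomial.eval_map, Polynomial.eval₂_at_apply, h0, map_zero]

set_option maxHeartbeats 1600000 in
/-- **`spec_poly` on a modular chart** (`S` = chart fin or chart inf, coordinate `ξ`):
local conclusion at the point `ab` of the special line, in series form. -/
theorem chart_local (hℓN : ¬ ℓ ∣ N) (hA : A.LiesOverPrime ℓ)
    {S : Set ↥(modularFunctionFieldFull N)} (hS : S = {jFull N} ∨ S = {(jFull N)⁻¹})
    {ξ : LaurentSeries A} (hξ : IsChartInt ℓ A N S ξ)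
    {x : Fb N} (hx : (x : LaurentSeries (AlgebraicClosure ℚ)) = coeffMap A.subtype ξ)
    {xb : Ft A N} (hxb : (xb : LaurentSeries (IsLocalRing.ResidueField A)) =
      coeffMap (IsLocalRing.residue A) ξ)
    (hxL : Transcendental (AlgebraicClosure ℚ) x)
    (hxk : Transcendental (IsLocalRing.ResidueField A) xb)
    (hFfin : FiniteDimensional (AlgebraicClosure ℚ)⟮x⟯ (Fb N))
    (hEfin : FiniteDimensional (IsLocalRing.ResidueField A)⟮xb⟯ (Ft A N))
    (hEsep : Algebra.IsSeparable (IsLocalRing.ResidueField A)⟮xb⟯ (Ft A N))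
    (hdeg : Module.finrank (IsLocalRing.ResidueField A)⟮xb⟯ (Ft A N) =
      Module.finrank (AlgebraicClosure ℚ)⟮x⟯ (Fb N))
    (hfg : ∃ s : Finset (LaurentSeries A), (∀ e ∈ s, IsChartInt ℓ A N S e) ∧
      ∀ y : LaurentSeries A, IsChartInt ℓ A N S y →
        ∃ p : LaurentSeries A → A[X],
          y = ∑ e ∈ s, (p e).eval₂ (HahnSeries.C : A →+* LaurentSeries A) ξ * e)
    (hint : ∀ f : Fb N, IsIntegral (Algebra.adjoin (AlgebraicClosure ℚ) {x}) f →
      ∃ (c : AlgebraicClosure ℚ) (y : LaurentSeries A), IsChartInt ℓ A N S y ∧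
        (f : LaurentSeries (AlgebraicClosure ℚ)) = HahnSeries.C c * coeffMap A.subtype y)
    (ab : IsLocalRing.ResidueField A)
    (hbranch : ∃ a₀ : A, ∀ a : A, IsLocalRing.residue A a = ab → a ≠ a₀ →
      Unbranched (AlgebraicClosure ℚ) x (a : AlgebraicClosure ℚ))
    (f : Ft A N) (hf : IsIntegral (Algebra.adjoin (IsLocalRing.ResidueField A) {xb}) f) :
    ∃ (s : (IsLocalRing.ResidueField A)[X]) (y : LaurentSeries A), IsChartInt ℓ A N S y ∧
      s.eval ab ≠ 0 ∧
      ((Polynomial.aeval xb s * f : Ft A N) : LaurentSeries (IsLocalRing.ResidueField A)) =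
        coeffMap (IsLocalRing.residue A) y := by
  classical
  have hS' : S ⊆ {jFull N, (jFull N)⁻¹} := by
    rcases hS with rfl | rfl
    · exact Set.singleton_subset_iff.mpr (Set.mem_insert _ _)
    · exact Set.singleton_subset_iff.mpr (Set.mem_insert_of_mem _ rfl)
  obtain rfl : x = genHom hℓN hA hS' ⟨ξ, hξ⟩ := Subtype.ext hx
  obtain rfl : xb = redHom hℓN hA hS' ⟨ξ, hξ⟩ := Subtype.ext hxb
  have hfg' : ∃ s : Finset (chartRing ℓ A N S), ∀ y : chartRing ℓ A N S,
      ∃ p : chartRing ℓ A N S → A[X],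
        y = ∑ e ∈ s, (p e).eval₂ (cstHom ℓ A N S) ⟨ξ, hξ⟩ * e := by
    obtain ⟨s₀, hs₀, h⟩ := hfg
    refine ⟨s₀.subtype (· ∈ chartRing ℓ A N S), fun y => ?_⟩
    obtain ⟨p, hp⟩ := h y.1 y.2
    refine ⟨fun e => p e.1, Subtype.ext ?_⟩
    have key : (chartRing ℓ A N S).subtype
        (∑ e ∈ s₀.subtype (· ∈ chartRing ℓ A N S),
          (p e.1).eval₂ (cstHom ℓ A N S) ⟨ξ, hξ⟩ * e) =
        ∑ e ∈ s₀, (p e).eval₂ (HahnSeries.C : A →+* LaurentSeries A) ξ * e := by
      rw [map_sum]
      have h1 : ∀ e ∈ s₀.subtype (· ∈ chartRing ℓ A N S),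
          (chartRing ℓ A N S).subtype ((p e.1).eval₂ (cstHom ℓ A N S) ⟨ξ, hξ⟩ * e) =
            (fun e : LaurentSeries A =>
              (p e).eval₂ (HahnSeries.C : A →+* LaurentSeries A) ξ * e) e.1 := by
        intro e _
        rw [map_mul, Polynomial.hom_eval₂]
        rfl
      have hs₀' : ∀ e ∈ s₀, e ∈ chartRing ℓ A N S := hs₀
      rw [Finset.sum_congr rfl h1, Finset.sum_subtype_eq_sum_filter
        (fun e : LaurentSeries A => (p e).eval₂ (HahnSeries.C : A →+* LaurentSeries A) ξ * e),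
        Finset.filter_true_of_mem hs₀']
    rw [hp]
    exact key.symm
  have hint' : ∀ f : Fb N,
      IsIntegral (Algebra.adjoin (AlgebraicClosure ℚ) {genHom hℓN hA hS' ⟨ξ, hξ⟩}) f →
      ∃ (c : AlgebraicClosure ℚ) (y : chartRing ℓ A N S),
        f = algebraMap (AlgebraicClosure ℚ) (Fb N) c * genHom hℓN hA hS' y := by
    intro f hf
    obtain ⟨c, y, hy, e⟩ := hint f hf
    refine ⟨c, ⟨y, hy⟩, Subtype.ext ?_⟩
    rw [e]
    show HahnSeries.C c * coeffMap A.subtype y =
      algebraMap (AlgebraicClosure ℚ) (LaurentSeries (AlgebraicClosure ℚ)) c *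
        coeffMap A.subtype y
    rw [algebraMap_laurentSeries_eq_single]
    rfl
  have hfrac' : ∀ f : Ft A N, ∃ y₁ y₂ : chartRing ℓ A N S,
      redHom hℓN hA hS' y₂ ≠ 0 ∧ f * redHom hℓN hA hS' y₂ = redHom hℓN hA hS' y₁ := by
    intro f
    have hfr : ∃ b₁ b₂ : LaurentSeries (IsLocalRing.ResidueField A),
        b₁ ∈ redSub ℓ A N S ∧ b₂ ∈ redSub ℓ A N S ∧ b₂ ≠ 0 ∧
          (f : LaurentSeries (IsLocalRing.ResidueField A)) * b₂ = b₁ := by
      rcases hS with h | h
      · rw [h]
        exact exists_frac_fin (ℓ := ℓ) hℓN hA f.2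
      · rw [h]
        exact exists_frac_inf (ℓ := ℓ) hℓN hA f.2
    obtain ⟨b₁, b₂, ⟨y₁, hy1, rfl⟩, ⟨y₂, hy2, rfl⟩, h0, he⟩ := hfr
    exact ⟨⟨y₁, hy1⟩, ⟨y₂, hy2⟩, fun h => h0 (congrArg Subtype.val h), Subtype.ext he⟩
  obtain ⟨s, y, hs, hy⟩ := spec_poly A (cstHom ℓ A N S) (genHom hℓN hA hS') (redHom hℓN hA hS')
    (genHom_injective hℓN hA hS') (genHom_cst hℓN hA hS') (redHom_cst hℓN hA hS') ⟨ξ, hξ⟩
    hxL hxk hFfin hEfin hEsep hdeg (redHom_ker hℓN hA hS hS') hfg' hint' hfrac' ab hbranch f hf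
  exact ⟨s, y.1, y.2, hs, congrArg Subtype.val hy⟩

/-- **Local ⟹ global on a modular chart**: local conclusions at all points of the special line
give the conclusion of `thmT_fin` / `thmT_inf`. -/
theorem chart_global (hℓN : ¬ ℓ ∣ N) (hA : A.LiesOverPrime ℓ)
    {S : Set ↥(modularFunctionFieldFull N)} (hS : S ⊆ {jFull N, (jFull N)⁻¹})
    {ξ : LaurentSeries A} (hξ : IsChartInt ℓ A N S ξ)
    {xb : Ft A N} (hxb : (xb : LaurentSeries (IsLocalRing.ResidueField A)) =
      coeffMap (IsLocalRing.residue A) ξ) (f : Ft A N)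
    (h : ∀ ab : IsLocalRing.ResidueField A,
      ∃ (s : (IsLocalRing.ResidueField A)[X]) (y : LaurentSeries A), IsChartInt ℓ A N S y ∧
        s.eval ab ≠ 0 ∧
        ((Polynomial.aeval xb s * f : Ft A N) : LaurentSeries (IsLocalRing.ResidueField A)) =
          coeffMap (IsLocalRing.residue A) y) :
    ∃ y : LaurentSeries A, IsChartInt ℓ A N S y ∧
      coeffMap (IsLocalRing.residue A) y = (f : LaurentSeries (IsLocalRing.ResidueField A)) := by
  obtain rfl : xb = redHom hℓN hA hS ⟨ξ, hξ⟩ := Subtype.ext hxb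
  have := isAlgClosed_residueField A
  obtain ⟨y, hy⟩ := mem_range_of_forall_local (redHom hℓN hA hS) (fun c => by
      obtain ⟨a, rfl⟩ := IsLocalRing.residue_surjective (R := A) c
      exact ⟨cstHom ℓ A N S a, redHom_cst hℓN hA hS a⟩) ⟨ξ, hξ⟩ f (fun ab => by
      obtain ⟨s, y, hy, hs, e⟩ := h ab
      exact ⟨s, ⟨y, hy⟩, hs, Subtype.ext e⟩)
  exact ⟨y.1, y.2, congrArg Subtype.val hy⟩

end Fermat.Agent.S18.T7709
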